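/-
P-DS / ES1-KL-FIELD (row 812, helper88), part 2: `FibreFieldStatement` from
`ReducedFibreStatement`.

With a reduced special fibre without nontrivial idempotents, `C / ϖ C` is a field:
every `z ∈ C` is a root of a monic polynomial with coefficients in the Gauss valuation ring
`O = A[x]_(ϖ)`; the least-index argument gives `z ^ m ≡ z ^ (m + 1) w`, and `(z w) ^ m` is an
idempotent modulo `ϖ`.
-/
import Fermat.Agent.H91.ES1KL.Interfaces1
import Fermat.Agent.H89.KLGauss
import Fermat.Agent.H88.ES1KL.FibreAbs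

set_option autoImplicit false
set_option linter.unusedSectionVars false
set_option linter.style.haveILetI false

noncomputable section

namespace Fermat.Agent.H88.ES1KL

open Polynomial
open Fermat.Agent.H22.KL Fermat.Agent.H91.ES1KL Fermat.Agent.H89
open Fermat.Agent.H67.KLConn (PiDvd)

variable {A : Type} [CommRing A] [IsDomain A] [IsDiscreteValuationRing A]
  {E : Type} [Field E] [Algebra A E]

/-- the Gauss closure as a subring of `E` -/
def gaussSub {ϖ : A} (hϖ : Irreducible ϖ) {x : E} (hx : Transcendental A x) : Subring E where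
  carrier := gaussClosure A E ϖ x
  mul_mem' := fun hy hz => (klg_gaussClosure_ops hϖ hx hy hz).2.1
  one_mem' := klg_chartClosure_le_gaussClosure hϖ hx (chartClosure A E x).one_mem
  add_mem' := fun hy hz => (klg_gaussClosure_ops hϖ hx hy hz).1
  zero_mem' := klg_chartClosure_le_gaussClosure hϖ hx (chartClosure A E x).zero_mem
  neg_mem' := fun hy => (klg_gaussClosure_ops hϖ hx hy hy).2.2

theorem mem_gaussSub {ϖ : A} (hϖ : Irreducible ϖ) {x : E} (hx : Transcendental A x) {y : E} :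
    y ∈ gaussSub hϖ hx ↔ y ∈ gaussClosure A E ϖ x := Iff.rfl

theorem piS_gaussSub_iff {ϖ : A} (hϖ : Irreducible ϖ) {x : E} (hx : Transcendental A x)
    {y : E} :
    PiS (gaussSub hϖ hx) (algebraMap A E ϖ) y ↔ PiDvdSet A E ϖ (gaussClosure A E ϖ x) y :=
  Iff.rfl

/-- an element `a(x) / h(x)` of the Gauss valuation ring of `K(x)` (`h ≢ 0 mod ϖ`) -/
def IsGaussQuot (ϖ : A) (x : E) (c : E) : Prop :=
  ∃ a h : A[X], ¬ C ϖ ∣ h ∧ aeval x h * c = aeval x a

theorem aeval_ne_zero_of_not_dvd {ϖ : A} {x : E} (hx : Transcendental A x) {h : A[X]}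
    (hh : ¬ C ϖ ∣ h) : aeval x h ≠ 0 := by
  intro h0
  apply hh
  have : h = 0 := (transcendental_iff_injective.mp hx) (by rw [h0, map_zero])
  rw [this]
  exact dvd_zero _

theorem IsGaussQuot.mem {ϖ : A} {x : E} (hx : Transcendental A x) {c : E}
    (hc : IsGaussQuot ϖ x c) : c ∈ gaussClosure A E ϖ x := by
  obtain ⟨a, h, hh, he⟩ := hc
  refine ⟨aeval x h, klg_aeval_mem_chartRing x h, ?_, ?_⟩
  · rw [klg_piDvd_aeval_iff hx]
    exact hh
  · rw [he]
    exact klg_chartRing_le_chartClosure x (klg_aeval_mem_chartRing x a)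

theorem IsGaussQuot.dichotomy {ϖ : A} {x : E} (hx : Transcendental A x) {c : E}
    (hc : IsGaussQuot ϖ x c) :
    PiDvdSet A E ϖ (gaussClosure A E ϖ x) c ∨ c⁻¹ ∈ gaussClosure A E ϖ x := by
  obtain ⟨a, h, hh, he⟩ := hc
  have hh0 : aeval x h ≠ 0 := aeval_ne_zero_of_not_dvd hx hh
  by_cases ha : C ϖ ∣ a
  · left
    obtain ⟨a', rfl⟩ := ha
    refine ⟨aeval x a' / aeval x h, IsGaussQuot.mem hx ⟨a', h, hh, by field_simp⟩, ?_⟩
    have hc : c = aeval x (C ϖ * a') / aeval x h := by
      rw [← he]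
      field_simp
    rw [hc, map_mul, aeval_C]
    ring
  · right
    have ha0 : aeval x a ≠ 0 := aeval_ne_zero_of_not_dvd hx ha
    have hc0 : c ≠ 0 := by
      rintro rfl
      rw [mul_zero] at he
      exact ha0 he.symm
    refine IsGaussQuot.mem hx ⟨h, a, ha, ?_⟩
    rw [← he]
    field_simp

/-- every element of the Gauss closure is a root of a monic polynomial with coefficients in
the Gauss valuation ring of `K(x)` -/
theorem exists_gauss_poly {ϖ : A} (hϖ : Irreducible ϖ) {x : E} (hx : Transcendental A x)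
    {z : E} (hz : z ∈ gaussClosure A E ϖ x) :
    ∃ p : E[X], p.Monic ∧ p.eval z = 0 ∧ ∀ i, IsGaussQuot ϖ x (p.coeff i) := by
  obtain ⟨h, hh, hnd, hhz⟩ := hz
  obtain ⟨hp, rfl, hhp⟩ := klg_exists_poly hx ϖ hh hnd
  obtain ⟨P, hPm, hPz⟩ := (klg_mem_chartClosure_iff x _).mp hhz
  set p₀ : E[X] := P.map (algebraMap (chartRing A E x) E) with hp₀
  have hp₀m : p₀.Monic := hPm.map _
  have hp₀z : p₀.eval (aeval x hp * z) = 0 := by
    rw [hp₀, Polynomial.eval_map]
    exact hPz
  have hh0 : aeval x hp ≠ 0 := aeval_ne_zero_of_not_dvd hx hhp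
  refine ⟨p₀.scaleRoots (aeval x hp)⁻¹, (monic_scaleRoots_iff _).mpr hp₀m, ?_, ?_⟩
  · have h := scaleRoots_eval₂_mul (p := p₀) (RingHom.id E) (aeval x hp * z) (aeval x hp)⁻¹
    simp only [RingHom.id_apply, Polynomial.eval₂_id] at h
    rw [← mul_assoc, inv_mul_cancel₀ hh0, one_mul] at h
    rw [h, hp₀z, mul_zero]
  · intro i
    rw [coeff_scaleRoots]
    obtain ⟨a, ha⟩ := (klg_mem_chartRing_iff x _).mp (P.coeff i).2
    refine ⟨a, hp ^ (p₀.natDegree - i), ?_, ?_⟩
    · intro hd
      exact hhp ((klg_prime_C hϖ).dvd_of_dvd_pow hd)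
    · have hci : p₀.coeff i = aeval x a := by
        rw [hp₀, Polynomial.coeff_map, ha]
        rfl
      have hk : aeval x hp ^ (p₀.natDegree - i) ≠ 0 := pow_ne_zero _ hh0
      rw [hci, map_pow, inv_pow, mul_comm (aeval x a), ← mul_assoc, mul_inv_cancel₀ hk, one_mul]

/-- **ES1-KL-FIELD**: with a good basis, a reduced special fibre and no nontrivial idempotent,
`C / ϖ C` is a field. -/
theorem fibreField (hR : ReducedFibreStatement) : FibreFieldStatement := by
  intro A _ _ _ E _ _ _ hinj ϖ hϖ x hx hGB hirr z hz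
  obtain ⟨p, hpm, hp0, hpq⟩ := exists_gauss_poly hϖ hx hz
  exact fibreField_abs (gaussSub hϖ hx) (algebraMap A E ϖ) z hz p hpm hp0
    (fun i => (hpq i).mem hx) (fun i => (hpq i).dichotomy hx)
    (fun e he hee => hirr e he hee)
    (fun m hm => hR A E hinj ϖ hϖ x hx hGB z hz m hm)

end Fermat.Agent.H88.ES1KL

end
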