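/-
P-DS / ES1-KL-FIELD (row 812, helper88), part 1 (Mathlib only): the abstract algebra.

`S` a subring of a field `E`, `π ∈ E`.  If `z ∈ S` is a root of a monic polynomial whose
coefficients `c` are in `S` and satisfy `c ∈ π S` or `c⁻¹ ∈ S`, and if `S / π S` is reduced and
has no nontrivial idempotent, then `z ∈ π S` or `z` is invertible modulo `π S`.
-/
import Mathlib

set_option autoImplicit false
set_option linter.unusedSectionVars false
set_option linter.style.haveILetI false

noncomputable section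

namespace Fermat.Agent.H88.ES1KL

open Polynomial

variable {E : Type} [Field E]

/-- `y ∈ π S` -/
def PiS (S : Subring E) (π : E) (y : E) : Prop := ∃ c ∈ S, y = π * c

theorem PiS.zero (S : Subring E) (π : E) : PiS S π 0 := ⟨0, S.zero_mem, by rw [mul_zero]⟩

theorem PiS.add {S : Subring E} {π y z : E} (hy : PiS S π y) (hz : PiS S π z) :
    PiS S π (y + z) := by
  obtain ⟨c, hc, rfl⟩ := hy
  obtain ⟨d, hd, rfl⟩ := hz
  exact ⟨c + d, S.add_mem hc hd, by ring⟩

theorem PiS.neg {S : Subring E} {π y : E} (hy : PiS S π y) : PiS S π (-y) := by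
  obtain ⟨c, hc, rfl⟩ := hy
  exact ⟨-c, S.neg_mem hc, by ring⟩

theorem PiS.sub {S : Subring E} {π y z : E} (hy : PiS S π y) (hz : PiS S π z) :
    PiS S π (y - z) := by
  rw [sub_eq_add_neg]
  exact hy.add hz.neg

theorem PiS.mul_left {S : Subring E} {π y : E} (hy : PiS S π y) {s : E} (hs : s ∈ S) :
    PiS S π (s * y) := by
  obtain ⟨c, hc, rfl⟩ := hy
  exact ⟨s * c, S.mul_mem hs hc, by ring⟩

theorem PiS.mul_right {S : Subring E} {π y : E} (hy : PiS S π y) {s : E} (hs : s ∈ S) :
    PiS S π (y * s) := by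
  rw [mul_comm]
  exact hy.mul_left hs

theorem eval_mem_of_coeff_mem (S : Subring E) {p : E[X]} (hp : ∀ i, p.coeff i ∈ S) {z : E}
    (hz : z ∈ S) : p.eval z ∈ S := by
  rw [Polynomial.eval_eq_sum_range]
  exact Subring.sum_mem _ (fun i _ => S.mul_mem (hp i) (S.pow_mem hz i))

theorem eval_eq_divX (p : E[X]) (z : E) : p.eval z = p.divX.eval z * z + p.coeff 0 := by
  have h := congrArg (Polynomial.eval z) (Polynomial.divX_mul_X_add p)
  rw [Polynomial.eval_add, Polynomial.eval_mul, Polynomial.eval_X, Polynomial.eval_C] at h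
  exact h.symm

/-- The least-index argument: a relation `z ^ m₀ * p(z) ∈ π S` with `p ≢ 0 mod π` gives
`z ^ m ≡ z ^ (m + 1) * w mod π S`. -/
theorem exists_pow_relation (S : Subring E) (π z : E) (hz : z ∈ S) :
    ∀ (n : ℕ) (p : E[X]), p.natDegree ≤ n → (∀ i, p.coeff i ∈ S) →
      (∀ i, PiS S π (p.coeff i) ∨ (p.coeff i)⁻¹ ∈ S) → (∃ i, ¬ PiS S π (p.coeff i)) →
      ∀ m₀ : ℕ, PiS S π (z ^ m₀ * p.eval z) →
      ∃ m : ℕ, ∃ w ∈ S, PiS S π (z ^ m - z ^ (m + 1) * w) := by
  intro n
  induction n with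
  | zero =>
    intro p hn hc hd hnd m₀ hrel
    by_cases h0 : PiS S π (p.coeff 0)
    · exfalso
      obtain ⟨i, hi⟩ := hnd
      rcases Nat.eq_zero_or_pos i with rfl | hpos
      · exact hi h0
      · apply hi
        rw [Polynomial.coeff_eq_zero_of_natDegree_lt (by omega)]
        exact PiS.zero S π
    · have hu : (p.coeff 0)⁻¹ ∈ S := (hd 0).resolve_left h0
      have hu0 : p.coeff 0 ≠ 0 := by
        intro h
        apply h0
        rw [h]
        exact PiS.zero S π
      refine ⟨m₀, -((p.coeff 0)⁻¹ * p.divX.eval z), S.neg_mem (S.mul_mem hu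
        (eval_mem_of_coeff_mem S (fun i => by rw [Polynomial.coeff_divX]; exact hc _) hz)), ?_⟩
      have e : z ^ m₀ - z ^ (m₀ + 1) * (-((p.coeff 0)⁻¹ * p.divX.eval z)) =
          (p.coeff 0)⁻¹ * (z ^ m₀ * p.eval z) := by
        rw [eval_eq_divX p z]
        field_simp
        ring
      rw [e]
      exact hrel.mul_left hu
  | succ n ih =>
    intro p hn hc hd hnd m₀ hrel
    by_cases h0 : PiS S π (p.coeff 0)
    · have hq : ∀ i, p.divX.coeff i = p.coeff (i + 1) := fun i => Polynomial.coeff_divX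
      apply ih p.divX
      · rw [Polynomial.natDegree_divX_eq_natDegree_tsub_one]
        omega
      · intro i
        rw [hq]
        exact hc _
      · intro i
        rw [hq]
        exact hd _
      · obtain ⟨i, hi⟩ := hnd
        rcases Nat.eq_zero_or_pos i with rfl | hpos
        · exact absurd h0 hi
        · refine ⟨i - 1, ?_⟩
          rw [hq, Nat.sub_add_cancel hpos]
          exact hi
      · show PiS S π (z ^ (m₀ + 1) * p.divX.eval z)
        have e : z ^ (m₀ + 1) * p.divX.eval z = z ^ m₀ * p.eval z - z ^ m₀ * p.coeff 0 := by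
          rw [eval_eq_divX p z]
          ring
        rw [e]
        exact hrel.sub (h0.mul_left (S.pow_mem hz m₀))
    · have hu : (p.coeff 0)⁻¹ ∈ S := (hd 0).resolve_left h0
      have hu0 : p.coeff 0 ≠ 0 := by
        intro h
        apply h0
        rw [h]
        exact PiS.zero S π
      refine ⟨m₀, -((p.coeff 0)⁻¹ * p.divX.eval z), S.neg_mem (S.mul_mem hu
        (eval_mem_of_coeff_mem S (fun i => by rw [Polynomial.coeff_divX]; exact hc _) hz)), ?_⟩
      have e : z ^ m₀ - z ^ (m₀ + 1) * (-((p.coeff 0)⁻¹ * p.divX.eval z)) =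
          (p.coeff 0)⁻¹ * (z ^ m₀ * p.eval z) := by
        rw [eval_eq_divX p z]
        field_simp
        ring
      rw [e]
      exact hrel.mul_left hu

/-- `z ^ m ≡ z ^ (m + k) * w ^ k mod π S` -/
theorem pow_relation_iter {S : Subring E} {π z w : E} (hz : z ∈ S) (hw : w ∈ S) {m : ℕ}
    (h : PiS S π (z ^ m - z ^ (m + 1) * w)) (k : ℕ) :
    PiS S π (z ^ m - z ^ (m + k) * w ^ k) := by
  induction k with
  | zero =>
    rw [add_zero, pow_zero, mul_one, sub_self]
    exact PiS.zero S π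
  | succ k ih =>
    have e : z ^ m - z ^ (m + (k + 1)) * w ^ (k + 1) =
        (z ^ m - z ^ (m + k) * w ^ k) + z ^ k * w ^ k * (z ^ m - z ^ (m + 1) * w) := by
      ring
    rw [e]
    exact ih.add (h.mul_left (S.mul_mem (S.pow_mem hz k) (S.pow_mem hw k)))

/-- **The abstract field criterion.** -/
theorem fibreField_abs (S : Subring E) (π z : E) (hz : z ∈ S)
    (p : E[X]) (hpm : p.Monic) (hp0 : p.eval z = 0) (hpc : ∀ i, p.coeff i ∈ S)
    (hpd : ∀ i, PiS S π (p.coeff i) ∨ (p.coeff i)⁻¹ ∈ S)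
    (hirr : ∀ e ∈ S, PiS S π (e * e - e) → PiS S π e ∨ PiS S π (1 - e))
    (hred : ∀ m : ℕ, PiS S π (z ^ m) → PiS S π z) :
    PiS S π z ∨ ∃ w ∈ S, PiS S π (z * w - 1) := by
  by_cases h1 : PiS S π 1
  · left
    have := h1.mul_left hz
    rwa [mul_one] at this
  obtain ⟨m, w, hw, hrel⟩ := exists_pow_relation S π z hz p.natDegree p le_rfl hpc hpd
    ⟨p.natDegree, by rw [hpm.coeff_natDegree]; exact h1⟩ 0
    (by rw [hp0, mul_zero]; exact PiS.zero S π)
  rcases Nat.eq_zero_or_pos m with rfl | hm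
  · right
    refine ⟨w, hw, ?_⟩
    have e : z * w - 1 = -(z ^ 0 - z ^ (0 + 1) * w) := by ring
    rw [e]
    exact hrel.neg
  have hd := pow_relation_iter hz hw hrel m
  have hzw : z * w ∈ S := S.mul_mem hz hw
  have he : (z * w) ^ m ∈ S := S.pow_mem hzw m
  have hee : PiS S π ((z * w) ^ m * (z * w) ^ m - (z * w) ^ m) := by
    have e : (z * w) ^ m * (z * w) ^ m - (z * w) ^ m =
        -(w ^ m * (z ^ m - z ^ (m + m) * w ^ m)) := by ring
    rw [e]
    exact (hd.mul_left (S.pow_mem hw m)).neg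
  rcases hirr _ he hee with h | h
  · left
    apply hred m
    have e : z ^ m = (z ^ m - z ^ (m + m) * w ^ m) + z ^ m * (z * w) ^ m := by ring
    rw [e]
    exact hd.add (h.mul_left (S.pow_mem hz m))
  · right
    refine ⟨z ^ (m - 1) * w ^ m, S.mul_mem (S.pow_mem hz _) (S.pow_mem hw _), ?_⟩
    have e : z * (z ^ (m - 1) * w ^ m) - 1 = -(1 - (z * w) ^ m) := by
      have : z ^ m = z * z ^ (m - 1) := by
        rw [← pow_succ', Nat.sub_add_cancel hm]
      rw [mul_pow, this]
      ring
    rw [e]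
    exact h.neg

end Fermat.Agent.H88.ES1KL

end
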